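import Mathlib.LinearAlgebra.Matrix.Determinant.Basic
import Mathlib.LinearAlgebra.Matrix.ToLinearEquiv
import Mathlib.RingTheory.LocalRing.ResidueField.Basic
import Mathlib.Tactic.LinearCombination
import Mathlib.Tactic.Ring

/-!
# The Cramer vector of a `d × (d+1)` matrix (P-FF, FF-G7, abstract form)

For a matrix `C` with `d` rows and `d + 1` columns the vector of signed maximal minors
`κ_j = (-1)^j det (C without column j)` lies in the kernel of `C`.  Over a field, if the kernel
of `C` is contained in a line, then `κ ≠ 0` (and so `κ` spans the kernel).  Over a local ring: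
if the kernel of the reduction of `C` is contained in a line then some `κ_j` is a unit.
-/

set_option autoImplicit false

namespace Fermat.Agent.H26.FF

open Matrix

section ring

variable {R : Type*} [CommRing R] {d : ℕ}

/-- The Cramer vector of a `d × (d+1)` matrix: the signed maximal minors. -/
def cramerVec (C : Matrix (Fin d) (Fin (d + 1)) R) (j : Fin (d + 1)) : R :=
  (-1) ^ (j : ℕ) * (C.submatrix id j.succAbove).det

/-- The Cramer vector lies in the kernel. -/
theorem mulVec_cramerVec (C : Matrix (Fin d) (Fin (d + 1)) R) : C *ᵥ cramerVec C = 0 := by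
  funext i
  let B : Matrix (Fin (d + 1)) (Fin (d + 1)) R := Matrix.of (Fin.cons (C i) C)
  have hB0 : B 0 = C i := rfl
  have hBs : ∀ i', B (Fin.succ i') = C i' := fun i' => rfl
  have hdet : B.det = 0 :=
    Matrix.det_zero_of_row_eq (i := 0) (j := Fin.succ i) (Fin.succ_ne_zero i).symm
      (by rw [hB0, hBs])
  rw [Matrix.det_succ_row_zero] at hdet
  have hsub : ∀ j : Fin (d + 1),
      B.submatrix Fin.succ j.succAbove = C.submatrix id j.succAbove := by
    intro j
    ext a b
    rfl
  simp only [Matrix.mulVec, dotProduct, Pi.zero_apply, cramerVec]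
  rw [← hdet]
  refine Finset.sum_congr rfl fun j _ => ?_
  rw [hsub j, hB0]
  ring

/-- Compatibility of the Cramer vector with ring homomorphisms. -/
theorem cramerVec_map {S : Type*} [CommRing S] (f : R →+* S)
    (C : Matrix (Fin d) (Fin (d + 1)) R) (j : Fin (d + 1)) :
    cramerVec (C.map f) j = f (cramerVec C j) := by
  simp only [cramerVec, map_mul, map_pow, map_neg, map_one]
  congr 1
  rw [RingHom.map_det]
  rfl

end ring

section field

variable {k : Type*} [Field k] {d : ℕ}

/-- Over a field: if the kernel of `C` is contained in the line spanned by `w ≠ 0`, then every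
minor `det (C without column j)` with `w j ≠ 0` is nonzero. -/
theorem minor_ne_zero_of_ker_le (C : Matrix (Fin d) (Fin (d + 1)) k) (w : Fin (d + 1) → k)
    (hker : ∀ v : Fin (d + 1) → k, C *ᵥ v = 0 → ∃ c : k, v = c • w)
    {j : Fin (d + 1)} (hj : w j ≠ 0) : (C.submatrix id j.succAbove).det ≠ 0 := by
  intro h0
  obtain ⟨v', hv', hv0⟩ := (Matrix.exists_mulVec_eq_zero_iff).mpr h0
  let v : Fin (d + 1) → k := Fin.insertNth j 0 v'
  have hvj : v j = 0 := by simp [v]
  have hvs : ∀ i, v (j.succAbove i) = v' i := fun i => by simp [v]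
  have hCv : C *ᵥ v = 0 := by
    funext i
    have := congrFun hv0 i
    simp only [Matrix.mulVec, dotProduct, Pi.zero_apply, Matrix.submatrix_apply, id] at this ⊢
    rw [Fin.sum_univ_succAbove _ j, hvj, mul_zero, zero_add]
    simp only [hvs]
    exact this
  obtain ⟨c, hc⟩ := hker v hCv
  have hc0 : c = 0 := by
    have := congrFun hc j
    rw [hvj, Pi.smul_apply, smul_eq_mul] at this
    rcases mul_eq_zero.mp this.symm with h | h
    · exact h
    · exact absurd h hj
  apply hv'
  funext i
  have := congrFun hc (j.succAbove i)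
  rw [hvs, hc0, zero_smul] at this
  exact this

/-- Over a field: if the kernel of `C` is contained in the line spanned by `w ≠ 0`, the Cramer
vector is nonzero at every `j` with `w j ≠ 0`. -/
theorem cramerVec_ne_zero_of_ker_le (C : Matrix (Fin d) (Fin (d + 1)) k) (w : Fin (d + 1) → k)
    (hker : ∀ v : Fin (d + 1) → k, C *ᵥ v = 0 → ∃ c : k, v = c • w)
    {j : Fin (d + 1)} (hj : w j ≠ 0) : cramerVec C j ≠ 0 := by
  unfold cramerVec
  exact mul_ne_zero (pow_ne_zero _ (neg_ne_zero.mpr one_ne_zero))
    (minor_ne_zero_of_ker_le C w hker hj)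

/-- Over a field: if some maximal minor is nonzero, the kernel of `C` is the line spanned by the
Cramer vector. -/
theorem eq_smul_cramerVec_of_mulVec_eq_zero (C : Matrix (Fin d) (Fin (d + 1)) k)
    {j : Fin (d + 1)} (hj : cramerVec C j ≠ 0) (v : Fin (d + 1) → k) (hv : C *ᵥ v = 0) :
    v = (v j / cramerVec C j) • cramerVec C := by
  -- `u := v - (v j / κ j) • κ` is in the kernel and vanishes at `j`
  set c : k := v j / cramerVec C j with hc
  set u : Fin (d + 1) → k := v - c • cramerVec C with hu
  have huj : u j = 0 := by
    simp only [hu, Pi.sub_apply, Pi.smul_apply, smul_eq_mul, hc]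
    field_simp
    ring
  have hCu : C *ᵥ u = 0 := by
    rw [hu, Matrix.mulVec_sub, Matrix.mulVec_smul, mulVec_cramerVec, hv, smul_zero, sub_zero]
  have hminor : (C.submatrix id j.succAbove).det ≠ 0 := by
    intro h0
    apply hj
    unfold cramerVec
    rw [h0, mul_zero]
  have hu' : (C.submatrix id j.succAbove) *ᵥ (fun i => u (j.succAbove i)) = 0 := by
    funext i
    have := congrFun hCu i
    simp only [Matrix.mulVec, dotProduct, Pi.zero_apply, Matrix.submatrix_apply, id] at this ⊢
    rw [Fin.sum_univ_succAbove _ j, huj, mul_zero, zero_add] at this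
    exact this
  have hzero : (fun i => u (j.succAbove i)) = 0 := by
    by_contra hne
    exact hminor ((Matrix.exists_mulVec_eq_zero_iff).mp ⟨_, hne, hu'⟩)
  have hu0 : u = 0 := by
    funext i
    rcases Fin.eq_self_or_eq_succAbove j i with h | ⟨i', h⟩
    · rw [h]; exact huj
    · rw [h]; exact congrFun hzero i'
  have : v - c • cramerVec C = 0 := hu0
  exact sub_eq_zero.mp this

end field

section localRing

variable {A : Type*} [CommRing A] [IsLocalRing A] {d : ℕ}

/-- Over a local ring: if the kernel of the reduction of `C` is contained in the line spanned by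
`w`, then the Cramer vector of `C` is a unit at every `j` with `w j ≠ 0`. -/
theorem isUnit_cramerVec_of_residue_ker_le (C : Matrix (Fin d) (Fin (d + 1)) A)
    (w : Fin (d + 1) → IsLocalRing.ResidueField A)
    (hker : ∀ v : Fin (d + 1) → IsLocalRing.ResidueField A,
      (C.map (IsLocalRing.residue A)) *ᵥ v = 0 → ∃ c : IsLocalRing.ResidueField A, v = c • w)
    {j : Fin (d + 1)} (hj : w j ≠ 0) : IsUnit (cramerVec C j) := by
  have h := cramerVec_ne_zero_of_ker_le (C.map (IsLocalRing.residue A)) w hker hj
  rw [cramerVec_map] at h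
  by_contra hu
  exact h ((IsLocalRing.residue_eq_zero_iff _).mpr hu)

end localRing

end Fermat.Agent.H26.FF
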