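import Fermat.Agent.H26.FF.ApproxCalc
import Fermat.Agent.H26.FF.Cramer

/-!
# P-FF, FF-G7-CRAMER: a generator of the kernel of an approximable matrix, by Cramer's rule

`C` a `d × (d+1)` matrix of approximable functions on the parameter set `S`, with values in `A`,
whose reduction `Cbar s` modulo the maximal ideal has a kernel of dimension `≤ 1` for every `s`.
Then the Cramer vector `κ` (signed maximal minors) is approximable, integral, lies in the kernel
of `C`, and for every `s` one of its entries is a unit of `A`.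
-/

set_option autoImplicit false
set_option linter.style.haveILetI false

namespace Fermat.Agent.H26.FF

open Fermat.Agent.H72.FF Matrix

section field

variable {k : Type*} [Field k] {d : ℕ}

/-- Over a field: a singular maximal minor gives a nonzero kernel vector vanishing at the deleted
column. -/
theorem exists_ker_of_minor_det_eq_zero (C : Matrix (Fin d) (Fin (d + 1)) k) (j : Fin (d + 1))
    (h0 : (C.submatrix id j.succAbove).det = 0) :
    ∃ v : Fin (d + 1) → k, v ≠ 0 ∧ C *ᵥ v = 0 ∧ v j = 0 := by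
  obtain ⟨v', hv', hv0⟩ := (Matrix.exists_mulVec_eq_zero_iff).mpr h0
  let v : Fin (d + 1) → k := Fin.insertNth j 0 v'
  have hvj : v j = 0 := by simp [v]
  have hvs : ∀ i, v (j.succAbove i) = v' i := fun i => by simp [v]
  refine ⟨v, ?_, ?_, hvj⟩
  · intro hv
    apply hv'
    funext i
    rw [← hvs i, hv]
    rfl
  · funext i
    have := congrFun hv0 i
    simp only [Matrix.mulVec, dotProduct, Pi.zero_apply, Matrix.submatrix_apply, id] at this ⊢
    rw [Fin.sum_univ_succAbove _ j, hvj, mul_zero, zero_add]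
    simp only [hvs]
    exact this

/-- Over a field: if the kernel of `C` has dimension `≤ 1`, some entry of the Cramer vector is
nonzero. -/
theorem exists_cramerVec_ne_zero (C : Matrix (Fin d) (Fin (d + 1)) k)
    (hker : ∀ v w : Fin (d + 1) → k, C *ᵥ v = 0 → C *ᵥ w = 0 → v ≠ 0 → ∃ a : k, w = a • v) :
    ∃ j, cramerVec C j ≠ 0 := by
  by_contra hall
  push Not at hall
  have hminor : ∀ j : Fin (d + 1), (C.submatrix id j.succAbove).det = 0 := by
    intro j
    have := hall j
    unfold cramerVec at this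
    rcases mul_eq_zero.mp this with h | h
    · exact absurd h (pow_ne_zero _ (neg_ne_zero.mpr one_ne_zero))
    · exact h
  obtain ⟨v, hv, hCv, -⟩ := exists_ker_of_minor_det_eq_zero C 0 (hminor 0)
  obtain ⟨j₁, hj₁⟩ : ∃ j₁, v j₁ ≠ 0 := by
    by_contra hne
    push Not at hne
    exact hv (funext hne)
  exact minor_ne_zero_of_ker_le C v (fun w hw => hker v w hCv hw hv) hj₁ (hminor j₁)

end field

/-- **FF-G7-CRAMER**, the statement (shape fixed by helper94, owner of FF-G7). -/
def CramerApproxStatement : Prop :=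
  ∀ (ℓ : ℕ) (A : ValuationSubring Qb), ℓ.Prime → A.LiesOverPrime ℓ →
    ∀ (S : Type) [Finite S] (n : ℕ) (x : S → Fin n → Qb), (∀ s i, x s i ∈ A.nonunits) →
    ∀ (d : ℕ) (C : Fin d → Fin (d + 1) → S → Qb)
      (Cbar : S → Fin d → Fin (d + 1) → kRes A),
      (∀ c j, IsApprox ℓ A x (C c j)) →
      (∀ c j s, ∃ h : C c j s ∈ A, IsLocalRing.residue A ⟨C c j s, h⟩ = Cbar s c j) →
      (∀ s, ∀ v w : Fin (d + 1) → kRes A, (∀ c, ∑ j, Cbar s c j * v j = 0) →
        (∀ c, ∑ j, Cbar s c j * w j = 0) → v ≠ 0 → ∃ a : kRes A, w = a • v) →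
      ∃ κ : Fin (d + 1) → S → Qb, (∀ j, IsApprox ℓ A x (κ j)) ∧ (∀ j s, κ j s ∈ A) ∧
        (∀ s c, ∑ j, C c j s * κ j s = 0) ∧ (∀ s, ∃ j, κ j s ≠ 0 ∧ (κ j s)⁻¹ ∈ A)

/-- The Cramer vector of the matrix of functions `C`, as a vector of functions. -/
noncomputable def cramerFun {S : Type} {d : ℕ} (C : Fin d → Fin (d + 1) → S → Qb)
    (j : Fin (d + 1)) (s : S) : Qb :=
  cramerVec (Matrix.of fun c j' => C c j' s) j

theorem cramerFun_isApprox {ℓ : ℕ} {A : ValuationSubring Qb} {S : Type} {n : ℕ}
    {x : S → Fin n → Qb} (hx : ∀ s i, x s i ∈ A) {d : ℕ} {C : Fin d → Fin (d + 1) → S → Qb}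
    (hC : ∀ c j, IsApprox ℓ A x (C c j)) (j : Fin (d + 1)) :
    IsApprox ℓ A x (cramerFun C j) := by
  have h1 : IsApprox ℓ A x (fun _ : S => ((-1 : Qb)) ^ (j : ℕ)) :=
    isApprox_const (Subring.pow_mem _ (Subring.neg_mem _ (Subring.one_mem _)) _)
  have h2 : IsApprox ℓ A x
      (fun s => ((Matrix.of fun c j' => C c j' s).submatrix id j.succAbove).det) :=
    isApprox_det hx (C := fun s => (Matrix.of fun c j' => C c j' s).submatrix id j.succAbove)
      fun a b => hC a (j.succAbove b)
  exact isApprox_mul hx h1 h2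

theorem cramerFun_kernel {S : Type} {d : ℕ} (C : Fin d → Fin (d + 1) → S → Qb) (s : S)
    (c : Fin d) : ∑ j, C c j s * cramerFun C j s = 0 := by
  have := congrFun (mulVec_cramerVec (Matrix.of fun c j' => C c j' s)) c
  simpa [Matrix.mulVec, dotProduct, cramerFun] using this

/-- The value of the Cramer vector at `s` is the image of the Cramer vector of any matrix over
`A` lifting `C s`. -/
theorem cramerFun_eq_coe {A : ValuationSubring Qb} {S : Type} {d : ℕ}
    (C : Fin d → Fin (d + 1) → S → Qb) (s : S) (CA : Matrix (Fin d) (Fin (d + 1)) A)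
    (hCA : ∀ c j, (CA c j : Qb) = C c j s) (j : Fin (d + 1)) :
    cramerFun C j s = ((cramerVec CA j : A) : Qb) := by
  have h := cramerVec_map A.subtype CA j
  have hm : CA.map A.subtype = Matrix.of fun c j' => C c j' s := by
    ext c j'
    exact hCA c j'
  rw [hm] at h
  exact h

/-- A unit of `A` is nonzero in `ℚ̄` and its inverse lies in `A`. -/
theorem coe_ne_zero_and_inv_mem_of_isUnit {A : ValuationSubring Qb} {a : A} (ha : IsUnit a) :
    (a : Qb) ≠ 0 ∧ (a : Qb)⁻¹ ∈ A := by
  obtain ⟨b, hb⟩ := isUnit_iff_exists_inv.mp ha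
  have h1 : (a : Qb) * (b : Qb) = 1 := by
    have := congrArg (fun z : A => (z : Qb)) hb
    exact this
  refine ⟨left_ne_zero_of_mul_eq_one h1, ?_⟩
  rw [← eq_inv_of_mul_eq_one_right h1]
  exact b.2

/-- **FF-G7-CRAMER.** -/
theorem cramerApprox : CramerApproxStatement := by
  intro ℓ A _ _ S _ n x hx d C Cbar hC hred hker
  have hxA : ∀ s i, x s i ∈ A := fun s i => ValuationSubring.nonunits_subset (hx s i)
  refine ⟨cramerFun C, fun j => cramerFun_isApprox hxA hC j,
    fun j s => isApprox_mem hxA (cramerFun_isApprox hxA hC j) s,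
    fun s c => cramerFun_kernel C s c, fun s => ?_⟩
  -- the matrix over `A` at `s`
  let CA : Matrix (Fin d) (Fin (d + 1)) A := Matrix.of fun c j => ⟨C c j s, (hred c j s).choose⟩
  have hCA : ∀ c j, (CA c j : Qb) = C c j s := fun c j => rfl
  have hCAres : CA.map (IsLocalRing.residue A) = Matrix.of (Cbar s) := by
    ext c j
    exact (hred c j s).choose_spec
  -- some entry of the reduced Cramer vector is nonzero
  have hex : ∃ j, cramerVec (Matrix.of (Cbar s)) j ≠ 0 := by
    apply exists_cramerVec_ne_zero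
    intro v w hv hw hv0
    refine hker s v w (fun c => ?_) (fun c => ?_) hv0
    · have := congrFun hv c
      simpa [Matrix.mulVec, dotProduct] using this
    · have := congrFun hw c
      simpa [Matrix.mulVec, dotProduct] using this
  obtain ⟨j, hj⟩ := hex
  rw [← hCAres, cramerVec_map] at hj
  have hu : IsUnit (cramerVec CA j) := by
    by_contra hnu
    exact hj ((IsLocalRing.residue_eq_zero_iff _).mpr hnu)
  have hval := coe_ne_zero_and_inv_mem_of_isUnit hu
  refine ⟨j, ?_⟩
  rw [cramerFun_eq_coe C s CA hCA j]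
  exact hval

/-- The reduction of the Cramer vector of `C` is the Cramer vector of the reduction of `C`. -/
theorem cramerFun_residue {A : ValuationSubring Qb} {S : Type} {d : ℕ}
    (C : Fin d → Fin (d + 1) → S → Qb) (Cbar : S → Fin d → Fin (d + 1) → kRes A)
    (hred : ∀ c j s, ∃ h : C c j s ∈ A, IsLocalRing.residue A ⟨C c j s, h⟩ = Cbar s c j)
    (j : Fin (d + 1)) (s : S) :
    ∃ h : cramerFun C j s ∈ A,
      IsLocalRing.residue A ⟨cramerFun C j s, h⟩ = cramerVec (Matrix.of (Cbar s)) j := by
  let CA : Matrix (Fin d) (Fin (d + 1)) A := Matrix.of fun c j => ⟨C c j s, (hred c j s).choose⟩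
  have hCA : ∀ c j, (CA c j : Qb) = C c j s := fun c j => rfl
  have hCAres : CA.map (IsLocalRing.residue A) = Matrix.of (Cbar s) := by
    ext c j
    exact (hred c j s).choose_spec
  have e := cramerFun_eq_coe C s CA hCA j
  refine ⟨e ▸ (cramerVec CA j).2, ?_⟩
  have : (⟨cramerFun C j s, e ▸ (cramerVec CA j).2⟩ : A) = cramerVec CA j := Subtype.ext e
  rw [this, ← hCAres, cramerVec_map]

/-- The reduction of the Cramer vector lies in the kernel of the reduced matrix. -/
theorem cramerVec_reduced_kernel {k : Type*} [Field k] {d : ℕ}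
    (Cb : Fin d → Fin (d + 1) → k) (c : Fin d) :
    ∑ j, Cb c j * cramerVec (Matrix.of Cb) j = 0 := by
  have := congrFun (mulVec_cramerVec (Matrix.of Cb)) c
  simpa [Matrix.mulVec, dotProduct] using this

end Fermat.Agent.H26.FF
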