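import Fermat.Agent.H94.FF.G7Interfaces
import Fermat.Agent.H26.FF.CramerApprox
import Fermat.Agent.H23.PlaceBasic

/-!
# P-FF, FF-G7-TAPPROX: values at moving points of a residue disc are approximable

`taylorApprox : TaylorRedStatement → TaylorApproxStatement` : if `t` is an unramified coordinate
on the disc of `Q`, `y` an unramified function without poles on the disc, `pt s` a family of
points of the disc (finite parameter set) whose coordinates `τ s = t(pt s)` are approximable, then
the values `v s = y(pt s)` are approximable.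

Also: `coord_value_mem_nonunits` (the coordinate of a point of the disc lies in the maximal ideal
of `A`) and `cramer : H94.FF.CramerStatement` (the interface name of FF-G7-CRAMER).
-/

set_option autoImplicit false
set_option synthInstance.maxHeartbeats 400000
set_option maxHeartbeats 1000000
set_option linter.style.haveILetI false
set_option linter.unusedSectionVars false

noncomputable section

open AlgebraicCurve ModularCurve Fermat.Agent.H18 Fermat.Agent.H27.ESD

namespace Fermat.Agent.H26.FF

open Fermat.Agent.H10.FF Fermat.Agent.H72.FF Fermat.Agent.H94.FF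

/-- **FF-G7-CRAMER**, under the name of helper94's interface. -/
theorem cramer : Fermat.Agent.H94.FF.CramerStatement := cramerApprox

/-- An element of the Gauss ring which is a constant `a ∈ A` reduces to the constant
`a mod m_A`. -/
theorem gaussRed_eq_of_coe_eq_algebraMap {A : ValuationSubring Qb} {N : ℕ} (u : gaussRing A N)
    {a : Qb} (haA : a ∈ A) (h : (u : FLb N) = algebraMap Qb (FLb N) a) :
    gaussRed A N u = algebraMap (kRes A) (Fkb A N) (IsLocalRing.residue A ⟨a, haA⟩) := by
  have hu : u = gaussConst A N ⟨a, haA⟩ := Subtype.ext h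
  rw [hu, gaussRed_gaussConst]

/-- In a function field: if `f` has a simple zero at `Q` and the value `c` at `Q`, then `c = 0`. -/
theorem const_eq_zero_of_ord_eq_one {K F : Type*} [Field K] [Field F] [Algebra K F]
    (Q : Place K F) {f : F} (hf : Q.ord f = 1) {c : K}
    (h : f = algebraMap K F c ∨ 1 ≤ Q.ord (f - algebraMap K F c)) : c = 0 := by
  by_contra hne
  have hcne : algebraMap K F c ≠ 0 := fun h0 => hne ((map_eq_zero (algebraMap K F)).mp h0)
  rcases h with h | h
  · rw [h, Fermat.Agent.H23.ord_algebraMap] at hf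
    exact zero_ne_one hf
  · have hsum : f + -(f - algebraMap K F c) = algebraMap K F c := by ring
    have hge : (1 : ℤ) ≤ Q.ord (f + -(f - algebraMap K F c)) := by
      refine Fermat.Agent.H23.ord_add_ge Q ?_ 1 (Or.inr (le_of_eq hf.symm)) (Or.inr ?_)
      · rw [hsum]; exact hcne
      · rw [Fermat.Agent.H23.ord_neg]; exact h
    rw [hsum, Fermat.Agent.H23.ord_algebraMap] at hge
    exact absurd hge (by norm_num)

/-- The value of an unramified coordinate of the disc of `Q` at a point of the disc lies in the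
maximal ideal of `A`. -/
theorem coord_value_mem_nonunits {N ℓ : ℕ} {A : ValuationSubring Qb}
    {r : Place Qb (FLb N) → Place (kRes A) (Fkb A N)} {g : ℕ} (hS : GeoSetup N ℓ A r g)
    {Q : Place (kRes A) (Fkb A N)} {P : Place Qb (FLb N)} {t : gaussRing A N}
    (hc : IsUnrCoord A N r Q P t) {P1 : Place Qb (FLb N)} (hP1 : r P1 = Q) {a : Qb}
    (haA : a ∈ A) (hv : HasValue P1 (t : FLb N) a) : a ∈ A.nonunits := by
  have hzero : IsLocalRing.residue A ⟨a, haA⟩ = 0 := by
    by_cases hconst : (t : FLb N) = algebraMap Qb (FLb N) a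
    · exact const_eq_zero_of_ord_eq_one Q hc.simple
        (Or.inl (gaussRed_eq_of_coe_eq_algebraMap t haA hconst))
    · have hord : 1 ≤ P1.ord ((t : FLb N) - algebraMap Qb (FLb N) a) := by
        rcases hv with h | h
        · exact absurd h hconst
        · exact h
      obtain ⟨hcA, hred⟩ := hS.rv.value_lemma t Q hc.nopole P1 hP1 a hord hconst
      exact const_eq_zero_of_ord_eq_one Q hc.simple hred
  rw [ValuationSubring.mem_nonunits_iff_exists_mem_maximalIdeal]
  exact ⟨haA, (IsLocalRing.residue_eq_zero_iff _).mp hzero⟩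

/-- **FF-G7-TAPPROX.** -/
theorem taylorApprox (hT : TaylorRedStatement) : TaylorApproxStatement := by
  intro N ℓ A r g hS Q P t hc y hy hnp S _ n x hx pt τ v hpt hτv hyv hτ
  have hxA : ∀ s i, x s i ∈ A := fun s i => ValuationSubring.nonunits_subset (hx s i)
  have hτA : ∀ s, τ s ∈ A := fun s => isApprox_mem hxA hτ s
  have hτm : ∀ s, τ s ∈ A.nonunits :=
    fun s => coord_value_mem_nonunits hS hc (hpt s) (hτA s) (hτv s)
  apply isApprox_of_limit
  intro M
  obtain ⟨M1, hM1⟩ := exists_pow_eq_prime_pow_mul hS.prime hS.liesOver τ hτm M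
  obtain ⟨c, hcR, hTay, -⟩ := hT N ℓ A r g hS Q P t hc y hy hnp M1
  refine ⟨fun s => ∑ k : Fin M1, ((c k : A) : Qb) * τ s ^ (k : ℕ), ?_, fun s => ?_⟩
  · exact isApprox_sum_univ fun k =>
      isApprox_mul hxA (isApprox_const (hcR k)) (isApprox_pow hxA hτ k)
  · obtain ⟨e, he, h1⟩ := hTay (pt s) (hpt s) (τ s) (v s) (hτv s) (hyv s)
    obtain ⟨e', he', h2⟩ := hM1 s
    exact ⟨e' * e, mul_mem he' he, by rw [h1, h2]; ring⟩

/-- The same from the weak form of the Taylor lemma. -/
theorem taylorApprox_of_taylor (hT : TaylorStatement) : TaylorApproxStatement := by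
  intro N ℓ A r g hS Q P t hc y hy hnp S _ n x hx pt τ v hpt hτv hyv hτ
  have hxA : ∀ s i, x s i ∈ A := fun s i => ValuationSubring.nonunits_subset (hx s i)
  have hτA : ∀ s, τ s ∈ A := fun s => isApprox_mem hxA hτ s
  have hτm : ∀ s, τ s ∈ A.nonunits :=
    fun s => coord_value_mem_nonunits hS hc (hpt s) (hτA s) (hτv s)
  apply isApprox_of_limit
  intro M
  obtain ⟨M1, hM1⟩ := exists_pow_eq_prime_pow_mul hS.prime hS.liesOver τ hτm M
  obtain ⟨p, hpR, hTay⟩ := hT N ℓ A r g hS Q P t hc y hy hnp M1
  refine ⟨fun s => p.eval (τ s), isApprox_eval_polynomial hxA hpR hτ, fun s => ?_⟩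
  obtain ⟨e, he, h1⟩ := hTay (pt s) (hpt s) (τ s) (v s) (hτv s) (hyv s)
  obtain ⟨e', he', h2⟩ := hM1 s
  exact ⟨e' * e, mul_mem he' he, by rw [h1, h2]; ring⟩

end Fermat.Agent.H26.FF
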