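import Mathlib.Algebra.MvPolynomial.Eval
import Mathlib.Algebra.MvPolynomial.Rename
import Mathlib.LinearAlgebra.Matrix.Determinant.Basic
import Mathlib.Tactic.LinearCombination
import Mathlib.Tactic.Ring

/-!
# Class `C` calculus: closure under ring operations (P-FF, FF-G7, abstract form)

`K` a commutative ring, `R ≤ A` subrings of `K`, `ℓ ∈ A`.  A function `φ : S → K` on a parameter
set `S` with parameters `x : S → Fin n → K` is *approximable* (`IsApproxG R A ℓ x φ`) if to every
precision `M` there is a polynomial `G` with coefficients in `R` such that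
`φ s - G (x s) ∈ ℓ ^ M • A` for all `s`.

If the parameters have values in `A`, the approximable functions have values in `A` and form a
subring of `S → K` containing the constants from `R` and the coordinate functions; in particular
they are closed under finite sums, finite products and determinants.

With `K = ℚ̄`, `A` a valuation subring over `ℓ` and `R = unrInt A` this is
`Fermat.Agent.H72.FF.IsApprox` (definitionally).
-/

set_option autoImplicit false

namespace Fermat.Agent.H26.FF

open MvPolynomial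

variable {K : Type*} [CommRing K]

/-- The subring of polynomials with coefficients in the subring `R`. -/
noncomputable def coeffSubring (n : ℕ) (R : Subring K) : Subring (MvPolynomial (Fin n) K) :=
  (MvPolynomial.map (R.subtype) : MvPolynomial (Fin n) R →+* MvPolynomial (Fin n) K).range

lemma mem_coeffSubring_iff {n : ℕ} {R : Subring K} {G : MvPolynomial (Fin n) K} :
    G ∈ coeffSubring n R ↔ ∀ m, G.coeff m ∈ R := by
  constructor
  · rintro ⟨G', rfl⟩ m
    rw [MvPolynomial.coeff_map]
    exact (G'.coeff m).2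
  · intro h
    refine ⟨∑ m ∈ G.support, MvPolynomial.monomial m (⟨G.coeff m, h m⟩ : R), ?_⟩
    rw [map_sum]
    conv_rhs => rw [G.as_sum]
    refine Finset.sum_congr rfl fun m _ => ?_
    rw [MvPolynomial.map_monomial]
    rfl

/-- The value of a polynomial with coefficients in `R ≤ A` at a point with coordinates in `A`
lies in `A`. -/
lemma eval_mem_of_mem_coeffSubring {n : ℕ} {R A : Subring K} (hRA : R ≤ A)
    {G : MvPolynomial (Fin n) K} (hG : G ∈ coeffSubring n R) {x : Fin n → K}
    (hx : ∀ i, x i ∈ A) : MvPolynomial.eval x G ∈ A := by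
  rw [MvPolynomial.eval_eq']
  refine Subring.sum_mem _ fun m _ => ?_
  refine Subring.mul_mem _ (hRA (mem_coeffSubring_iff.mp hG m)) ?_
  exact Subring.prod_mem _ fun i _ => Subring.pow_mem _ (hx i) _

/-- `φ` is an `ℓ`-adic limit of polynomials over `R` in the parameters `x`, uniformly on the
parameter set `S` (errors measured in `A`). -/
def IsApproxG (R A : Subring K) (ℓ : K) {S : Type*} {n : ℕ} (x : S → Fin n → K)
    (φ : S → K) : Prop :=
  ∀ M : ℕ, ∃ G : MvPolynomial (Fin n) K, (∀ m, G.coeff m ∈ R) ∧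
    ∀ s, ∃ a ∈ A, φ s - MvPolynomial.eval (x s) G = ℓ ^ M * a

section closure

variable {R A : Subring K} {ℓ : K} {S : Type*} {n : ℕ} {x : S → Fin n → K}

/-- Constants from `R` are approximable. -/
lemma IsApproxG.const {c : K} (hc : c ∈ R) : IsApproxG R A ℓ x (fun _ => c) := by
  intro M
  refine ⟨MvPolynomial.C c, ?_, fun s => ⟨0, A.zero_mem, by simp⟩⟩
  exact mem_coeffSubring_iff.mp ⟨MvPolynomial.C ⟨c, hc⟩, by simp⟩

/-- The coordinate functions are approximable. -/
lemma IsApproxG.coord (i : Fin n) : IsApproxG R A ℓ x (fun s => x s i) := by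
  intro M
  refine ⟨MvPolynomial.X i, ?_, fun s => ⟨0, A.zero_mem, by simp⟩⟩
  exact mem_coeffSubring_iff.mp ⟨MvPolynomial.X i, by simp⟩

lemma IsApproxG.zero : IsApproxG R A ℓ x (fun _ => (0 : K)) := IsApproxG.const R.zero_mem

lemma IsApproxG.one : IsApproxG R A ℓ x (fun _ => (1 : K)) := IsApproxG.const R.one_mem

lemma IsApproxG.congr {φ ψ : S → K} (hφ : IsApproxG R A ℓ x φ) (h : ∀ s, φ s = ψ s) :
    IsApproxG R A ℓ x ψ := by
  have : φ = ψ := funext h
  rwa [← this]

lemma IsApproxG.add {φ ψ : S → K} (hφ : IsApproxG R A ℓ x φ) (hψ : IsApproxG R A ℓ x ψ) :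
    IsApproxG R A ℓ x (fun s => φ s + ψ s) := by
  intro M
  obtain ⟨G, hG, hG'⟩ := hφ M
  obtain ⟨H, hH, hH'⟩ := hψ M
  refine ⟨G + H, ?_, fun s => ?_⟩
  · exact mem_coeffSubring_iff.mp
      (Subring.add_mem _ (mem_coeffSubring_iff.mpr hG) (mem_coeffSubring_iff.mpr hH))
  · obtain ⟨a, ha, e⟩ := hG' s
    obtain ⟨b, hb, e'⟩ := hH' s
    refine ⟨a + b, A.add_mem ha hb, ?_⟩
    rw [map_add, mul_add, ← e, ← e']
    ring

lemma IsApproxG.neg {φ : S → K} (hφ : IsApproxG R A ℓ x φ) :
    IsApproxG R A ℓ x (fun s => -φ s) := by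
  intro M
  obtain ⟨G, hG, hG'⟩ := hφ M
  refine ⟨-G, ?_, fun s => ?_⟩
  · exact mem_coeffSubring_iff.mp (Subring.neg_mem _ (mem_coeffSubring_iff.mpr hG))
  · obtain ⟨a, ha, e⟩ := hG' s
    refine ⟨-a, A.neg_mem ha, ?_⟩
    rw [map_neg, mul_neg, ← e]
    ring

lemma IsApproxG.sub {φ ψ : S → K} (hφ : IsApproxG R A ℓ x φ) (hψ : IsApproxG R A ℓ x ψ) :
    IsApproxG R A ℓ x (fun s => φ s - ψ s) := by
  have := hφ.add hψ.neg
  exact this.congr fun s => by ring

/-- Approximable functions of integral parameters have integral values. -/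
lemma IsApproxG.mem (hRA : R ≤ A) (hx : ∀ s i, x s i ∈ A) {φ : S → K}
    (hφ : IsApproxG R A ℓ x φ) (s : S) : φ s ∈ A := by
  obtain ⟨G, hG, hG'⟩ := hφ 0
  obtain ⟨a, ha, e⟩ := hG' s
  have hGs : MvPolynomial.eval (x s) G ∈ A :=
    eval_mem_of_mem_coeffSubring hRA (mem_coeffSubring_iff.mpr hG) (hx s)
  have : φ s = MvPolynomial.eval (x s) G + a := by
    rw [pow_zero, one_mul] at e
    rw [← e]
    ring
  rw [this]
  exact A.add_mem hGs ha

lemma IsApproxG.mul (hRA : R ≤ A) (hx : ∀ s i, x s i ∈ A) {φ ψ : S → K}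
    (hφ : IsApproxG R A ℓ x φ) (hψ : IsApproxG R A ℓ x ψ) :
    IsApproxG R A ℓ x (fun s => φ s * ψ s) := by
  intro M
  obtain ⟨G, hG, hG'⟩ := hφ M
  obtain ⟨H, hH, hH'⟩ := hψ M
  refine ⟨G * H, ?_, fun s => ?_⟩
  · exact mem_coeffSubring_iff.mp
      (Subring.mul_mem _ (mem_coeffSubring_iff.mpr hG) (mem_coeffSubring_iff.mpr hH))
  · obtain ⟨a, ha, e⟩ := hG' s
    obtain ⟨b, hb, e'⟩ := hH' s
    have hGs : MvPolynomial.eval (x s) G ∈ A :=
      eval_mem_of_mem_coeffSubring hRA (mem_coeffSubring_iff.mpr hG) (hx s)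
    refine ⟨a * ψ s + MvPolynomial.eval (x s) G * b,
      A.add_mem (A.mul_mem ha (hψ.mem hRA hx s)) (A.mul_mem hGs hb), ?_⟩
    rw [map_mul]
    show φ s * ψ s - _ = _
    linear_combination ψ s * e + MvPolynomial.eval (x s) G * e'

lemma IsApproxG.pow (hRA : R ≤ A) (hx : ∀ s i, x s i ∈ A) {φ : S → K}
    (hφ : IsApproxG R A ℓ x φ) (k : ℕ) : IsApproxG R A ℓ x (fun s => φ s ^ k) := by
  induction k with
  | zero => exact IsApproxG.one.congr fun s => (pow_zero _).symm
  | succ k ih => exact (ih.mul hRA hx hφ).congr fun s => (pow_succ _ _).symm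

lemma IsApproxG.smul_const (hRA : R ≤ A) (hx : ∀ s i, x s i ∈ A) {c : K} (hc : c ∈ R)
    {φ : S → K} (hφ : IsApproxG R A ℓ x φ) : IsApproxG R A ℓ x (fun s => c * φ s) :=
  (IsApproxG.const hc).mul hRA hx hφ

lemma IsApproxG.sum {ι : Type*} (t : Finset ι) {φ : ι → S → K}
    (hφ : ∀ i ∈ t, IsApproxG R A ℓ x (φ i)) :
    IsApproxG R A ℓ x (fun s => ∑ i ∈ t, φ i s) := by
  classical
  induction t using Finset.induction_on with
  | empty => exact IsApproxG.zero.congr fun s => by simp
  | insert a t ha ih =>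
    have h1 := hφ a (Finset.mem_insert_self a t)
    have h2 := ih fun i hi => hφ i (Finset.mem_insert_of_mem hi)
    exact (h1.add h2).congr fun s => by rw [Finset.sum_insert ha]

lemma IsApproxG.prod (hRA : R ≤ A) (hx : ∀ s i, x s i ∈ A) {ι : Type*} (t : Finset ι)
    {φ : ι → S → K} (hφ : ∀ i ∈ t, IsApproxG R A ℓ x (φ i)) :
    IsApproxG R A ℓ x (fun s => ∏ i ∈ t, φ i s) := by
  classical
  induction t using Finset.induction_on with
  | empty => exact IsApproxG.one.congr fun s => by simp
  | insert a t ha ih =>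
    have h1 := hφ a (Finset.mem_insert_self a t)
    have h2 := ih fun i hi => hφ i (Finset.mem_insert_of_mem hi)
    exact (h1.mul hRA hx h2).congr fun s => by rw [Finset.prod_insert ha]

/-- The determinant of a matrix of approximable functions is approximable. -/
lemma IsApproxG.det (hRA : R ≤ A) (hx : ∀ s i, x s i ∈ A) {ι : Type*} [Fintype ι]
    [DecidableEq ι] {C : S → Matrix ι ι K}
    (hC : ∀ i j, IsApproxG R A ℓ x (fun s => C s i j)) :
    IsApproxG R A ℓ x (fun s => (C s).det) := by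
  have key : IsApproxG R A ℓ x
      (fun s => ∑ σ : Equiv.Perm ι, ((Equiv.Perm.sign σ : ℤ) : K) * ∏ i, C s (σ i) i) := by
    refine IsApproxG.sum _ fun σ _ => ?_
    refine (IsApproxG.const ?_).mul hRA hx (IsApproxG.prod hRA hx _ fun i _ => hC (σ i) i)
    exact intCast_mem R _
  exact key.congr fun s => by
    rw [Matrix.det_apply']

/-- Evaluating a polynomial with coefficients in `R` at approximable functions gives an
approximable function. -/
lemma IsApproxG.eval_poly (hRA : R ≤ A) (hx : ∀ s i, x s i ∈ A) {m : ℕ}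
    {ψ : S → Fin m → K} (hψ : ∀ j, IsApproxG R A ℓ x (fun s => ψ s j))
    {G : MvPolynomial (Fin m) K} (hG : ∀ d, G.coeff d ∈ R) :
    IsApproxG R A ℓ x (fun s => MvPolynomial.eval (ψ s) G) := by
  have key : IsApproxG R A ℓ x
      (fun s => ∑ d ∈ G.support, G.coeff d * ∏ i, ψ s i ^ d i) := by
    refine IsApproxG.sum _ fun d _ => ?_
    refine (IsApproxG.const (hG d)).mul hRA hx ?_
    exact IsApproxG.prod hRA hx _ fun i _ => (hψ i).pow hRA hx _
  exact key.congr fun s => by rw [MvPolynomial.eval_eq']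

end closure

end Fermat.Agent.H26.FF
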