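import Fermat.Agent.H72.FF.GeoBlocks
import Fermat.Agent.H18.RedArch
import Fermat.Agent.H26.FF.ApproxRing

/-!
# P-FF, FF-G7-RING: the class `C` calculus for `Fermat.Agent.H72.FF.IsApprox`

Closure of `IsApprox ℓ A x` (functions on a parameter set `S` which are `ℓ`-adic limits of
polynomials over `R = unrInt A` in the parameters `x : S → Fin n → ℚ̄`) under:

* constants from `R`, coordinate functions, `+`, `-`, `*`, powers, finite sums and products,
  determinants, substitution into univariate / multivariate polynomials over `R`;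
* `ℓ`-adic limits (`isApprox_of_limit`);
* reparametrisation of `S` and enlarging / reindexing of the set of variables;

plus integrality of the values and the uniformity lemma (`exists_pow_eq_prime_pow_mul`: on a finite
parameter set a high power of a function with values in the maximal ideal is divisible by `ℓ ^ M'`).

All statements are for the definition `Fermat.Agent.H72.FF.IsApprox` of the interface file
`Fermat.Agent.H72.FF.GeoBlocks`; the proofs are in the abstract file `H26.FF.ApproxRing`.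
-/

set_option autoImplicit false
set_option linter.style.haveILetI false

namespace Fermat.Agent.H26.FF

open Fermat.Agent.H72.FF MvPolynomial

variable {ℓ : ℕ} {A : ValuationSubring Qb} {S : Type} {n : ℕ} {x : S → Fin n → Qb}

/-- `H72.FF.IsApprox` is the abstract `IsApproxG` for `R = unrInt A`. -/
theorem isApprox_iff {φ : S → Qb} :
    IsApprox ℓ A x φ ↔ IsApproxG (unrInt A) A.toSubring (ℓ : Qb) x φ := Iff.rfl

theorem unrInt_le (A : ValuationSubring Qb) : unrInt A ≤ A.toSubring := fun _ h => h.1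

/-! ### Ring operations -/

theorem isApprox_const {c : Qb} (hc : c ∈ unrInt A) : IsApprox ℓ A x (fun _ => c) :=
  IsApproxG.const hc

theorem isApprox_zero : IsApprox ℓ A x (fun _ => (0 : Qb)) := IsApproxG.zero

theorem isApprox_one : IsApprox ℓ A x (fun _ => (1 : Qb)) := IsApproxG.one

theorem isApprox_natCast (k : ℕ) : IsApprox ℓ A x (fun _ => (k : Qb)) :=
  IsApproxG.const (natCast_mem _ k)

theorem isApprox_intCast (k : ℤ) : IsApprox ℓ A x (fun _ => (k : Qb)) :=
  IsApproxG.const (intCast_mem _ k)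

theorem isApprox_var (i : Fin n) : IsApprox ℓ A x (fun s => x s i) := IsApproxG.coord i

theorem isApprox_congr {φ ψ : S → Qb} (hφ : IsApprox ℓ A x φ) (h : ∀ s, φ s = ψ s) :
    IsApprox ℓ A x ψ := IsApproxG.congr hφ h

theorem isApprox_add {φ ψ : S → Qb} (hφ : IsApprox ℓ A x φ) (hψ : IsApprox ℓ A x ψ) :
    IsApprox ℓ A x (fun s => φ s + ψ s) := IsApproxG.add hφ hψ

theorem isApprox_neg {φ : S → Qb} (hφ : IsApprox ℓ A x φ) :
    IsApprox ℓ A x (fun s => -φ s) := IsApproxG.neg hφ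

theorem isApprox_sub {φ ψ : S → Qb} (hφ : IsApprox ℓ A x φ) (hψ : IsApprox ℓ A x ψ) :
    IsApprox ℓ A x (fun s => φ s - ψ s) := IsApproxG.sub hφ hψ

/-- **Integrality**: approximable functions of integral parameters have integral values. -/
theorem isApprox_mem (hx : ∀ s i, x s i ∈ A) {φ : S → Qb} (hφ : IsApprox ℓ A x φ) (s : S) :
    φ s ∈ A :=
  IsApproxG.mem (unrInt_le A) hx hφ s

theorem isApprox_mul (hx : ∀ s i, x s i ∈ A) {φ ψ : S → Qb} (hφ : IsApprox ℓ A x φ)
    (hψ : IsApprox ℓ A x ψ) : IsApprox ℓ A x (fun s => φ s * ψ s) :=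
  IsApproxG.mul (unrInt_le A) hx hφ hψ

theorem isApprox_pow (hx : ∀ s i, x s i ∈ A) {φ : S → Qb} (hφ : IsApprox ℓ A x φ) (k : ℕ) :
    IsApprox ℓ A x (fun s => φ s ^ k) :=
  IsApproxG.pow (unrInt_le A) hx hφ k

theorem isApprox_sum {ι : Type*} (t : Finset ι) {φ : ι → S → Qb}
    (hφ : ∀ i ∈ t, IsApprox ℓ A x (φ i)) : IsApprox ℓ A x (fun s => ∑ i ∈ t, φ i s) :=
  IsApproxG.sum t hφ

theorem isApprox_sum_univ {ι : Type*} [Fintype ι] {φ : ι → S → Qb}
    (hφ : ∀ i, IsApprox ℓ A x (φ i)) : IsApprox ℓ A x (fun s => ∑ i, φ i s) :=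
  IsApproxG.sum Finset.univ fun i _ => hφ i

theorem isApprox_prod (hx : ∀ s i, x s i ∈ A) {ι : Type*} (t : Finset ι) {φ : ι → S → Qb}
    (hφ : ∀ i ∈ t, IsApprox ℓ A x (φ i)) : IsApprox ℓ A x (fun s => ∏ i ∈ t, φ i s) :=
  IsApproxG.prod (unrInt_le A) hx t hφ

theorem isApprox_prod_univ (hx : ∀ s i, x s i ∈ A) {ι : Type*} [Fintype ι] {φ : ι → S → Qb}
    (hφ : ∀ i, IsApprox ℓ A x (φ i)) : IsApprox ℓ A x (fun s => ∏ i, φ i s) :=
  IsApproxG.prod (unrInt_le A) hx Finset.univ fun i _ => hφ i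

/-- The determinant of a matrix of approximable functions is approximable. -/
theorem isApprox_det (hx : ∀ s i, x s i ∈ A) {ι : Type*} [Fintype ι] [DecidableEq ι]
    {C : S → Matrix ι ι Qb} (hC : ∀ i j, IsApprox ℓ A x (fun s => C s i j)) :
    IsApprox ℓ A x (fun s => (C s).det) :=
  IsApproxG.det (unrInt_le A) hx hC

/-! ### Substitution into polynomials -/

/-- Substitution of approximable functions into a multivariate polynomial over `R`. -/
theorem isApprox_eval_mvPolynomial (hx : ∀ s i, x s i ∈ A) {m : ℕ} {ψ : S → Fin m → Qb}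
    (hψ : ∀ j, IsApprox ℓ A x (fun s => ψ s j)) {G : MvPolynomial (Fin m) Qb}
    (hG : ∀ d, G.coeff d ∈ unrInt A) : IsApprox ℓ A x (fun s => MvPolynomial.eval (ψ s) G) :=
  IsApproxG.eval_poly (unrInt_le A) hx hψ hG

/-- Substitution of an approximable function into a univariate polynomial over `R`. -/
theorem isApprox_eval_polynomial (hx : ∀ s i, x s i ∈ A) {p : Polynomial Qb}
    (hp : ∀ k, p.coeff k ∈ unrInt A) {τ : S → Qb} (hτ : IsApprox ℓ A x τ) :
    IsApprox ℓ A x (fun s => p.eval (τ s)) := by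
  have key : IsApprox ℓ A x
      (fun s => ∑ k ∈ Finset.range (p.natDegree + 1), p.coeff k * τ s ^ k) :=
    isApprox_sum _ fun k _ => isApprox_mul hx (isApprox_const (hp k)) (isApprox_pow hx hτ k)
  exact isApprox_congr key fun s => by rw [Polynomial.eval_eq_sum_range]

/-! ### Limits -/

/-- **Limit closure**: an `ℓ`-adic limit of approximable functions is approximable. -/
theorem isApprox_of_limit {ψ : S → Qb}
    (h : ∀ M : ℕ, ∃ φ : S → Qb, IsApprox ℓ A x φ ∧
      ∀ s, ∃ e ∈ A, ψ s - φ s = (ℓ : Qb) ^ M * e) : IsApprox ℓ A x ψ := by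
  intro M
  obtain ⟨φ, hφ, hψφ⟩ := h M
  obtain ⟨G, hG, hG'⟩ := hφ M
  refine ⟨G, hG, fun s => ?_⟩
  obtain ⟨e, he, e1⟩ := hψφ s
  obtain ⟨a, ha, e2⟩ := hG' s
  refine ⟨e + a, add_mem he ha, ?_⟩
  linear_combination e1 + e2

/-- A function that agrees with an approximable one up to `ℓ ^ M • A` for every `M`
(in particular: equal to it) is approximable. -/
theorem isApprox_of_forall_close {φ ψ : S → Qb} (hφ : IsApprox ℓ A x φ)
    (h : ∀ M : ℕ, ∀ s, ∃ e ∈ A, ψ s - φ s = (ℓ : Qb) ^ M * e) : IsApprox ℓ A x ψ :=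
  isApprox_of_limit fun M => ⟨φ, hφ, h M⟩

/-! ### Reparametrisation and reindexing of the variables -/

/-- **Reparametrisation** of the parameter set. -/
theorem isApprox_comp {S' : Type} (f : S' → S) {φ : S → Qb} (hφ : IsApprox ℓ A x φ) :
    IsApprox ℓ A (fun s' => x (f s')) (fun s' => φ (f s')) := by
  intro M
  obtain ⟨G, hG, hG'⟩ := hφ M
  exact ⟨G, hG, fun s' => hG' (f s')⟩

/-- **Enlarging / reindexing the variables**: a function approximable in the variables
`x' s ∘ g` is approximable in the variables `x'` (any map `g` of the index sets). -/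
theorem isApprox_rename {n' : ℕ} (g : Fin n → Fin n') {x' : S → Fin n' → Qb} {φ : S → Qb}
    (hφ : IsApprox ℓ A (fun s => x' s ∘ g) φ) : IsApprox ℓ A x' φ := by
  intro M
  obtain ⟨G, hG, hG'⟩ := hφ M
  refine ⟨MvPolynomial.rename g G, ?_, fun s => ?_⟩
  · obtain ⟨G₀, rfl⟩ := mem_coeffSubring_iff.mpr hG
    apply mem_coeffSubring_iff.mp
    exact ⟨MvPolynomial.rename g G₀, (MvPolynomial.map_rename _ g G₀)⟩
  · obtain ⟨a, ha, e⟩ := hG' s
    refine ⟨a, ha, ?_⟩
    rw [MvPolynomial.eval_rename]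
    exact e

/-- Reindexing the variables along an equivalence. -/
theorem isApprox_reindex {n' : ℕ} (e : Fin n ≃ Fin n') {φ : S → Qb}
    (hφ : IsApprox ℓ A x φ) : IsApprox ℓ A (fun s => x s ∘ e.symm) φ := by
  apply isApprox_rename (e : Fin n → Fin n')
  have : (fun s => (x s ∘ e.symm) ∘ (e : Fin n → Fin n')) = x := by
    funext s i
    simp
  rw [this]
  exact hφ

/-- Approximable in the first block of variables implies approximable in both blocks. -/
theorem isApprox_of_left {n₁ n₂ : ℕ} {x₁ : S → Fin n₁ → Qb} {x₂ : S → Fin n₂ → Qb}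
    {φ : S → Qb} (hφ : IsApprox ℓ A x₁ φ) :
    IsApprox ℓ A (fun s => Fin.append (x₁ s) (x₂ s)) φ := by
  apply isApprox_rename (Fin.castAdd n₂)
  have : (fun s => Fin.append (x₁ s) (x₂ s) ∘ Fin.castAdd n₂) = x₁ := by
    funext s i
    simp
  rw [this]
  exact hφ

/-- Approximable in the second block of variables implies approximable in both blocks. -/
theorem isApprox_of_right {n₁ n₂ : ℕ} {x₁ : S → Fin n₁ → Qb} {x₂ : S → Fin n₂ → Qb}
    {φ : S → Qb} (hφ : IsApprox ℓ A x₂ φ) :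
    IsApprox ℓ A (fun s => Fin.append (x₁ s) (x₂ s)) φ := by
  apply isApprox_rename (Fin.natAdd n₁)
  have : (fun s => Fin.append (x₁ s) (x₂ s) ∘ Fin.natAdd n₁) = x₂ := by
    funext s i
    simp
  rw [this]
  exact hφ

/-! ### Uniformity -/

/-- A power of every element of the maximal ideal of `A` is divisible by `ℓ`. -/
theorem exists_pow_eq_prime_mul (hℓ : ℓ.Prime) (hA : A.LiesOverPrime ℓ) {a : Qb}
    (ha : a ∈ A.nonunits) : ∃ N : ℕ, 0 < N ∧ ∃ e ∈ A, a ^ N = (ℓ : Qb) * e := by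
  obtain ⟨haA, hm⟩ := (ValuationSubring.mem_nonunits_iff_exists_mem_maximalIdeal).mp ha
  have hnu : ¬ IsUnit (⟨a, haA⟩ : A) := (IsLocalRing.mem_maximalIdeal _).mp hm
  obtain ⟨N, e, he⟩ := Fermat.Agent.H18.rv_prime_dvd_pow A hℓ hA
    Fermat.Agent.H18.rv_isAlgebraic_int_algebraicClosure hnu
  have he' : a ^ N = (ℓ : Qb) * (e : Qb) := by
    have := congrArg (fun z : A => (z : Qb)) he
    simpa using this
  refine ⟨N + 1, Nat.succ_pos N, e * a, mul_mem e.2 haA, ?_⟩
  rw [pow_succ, he']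
  ring

/-- **Uniformity**: on a finite parameter set, a sufficiently high power of a function with
values in the maximal ideal of `A` is divisible by `ℓ ^ M'`. -/
theorem exists_pow_eq_prime_pow_mul (hℓ : ℓ.Prime) (hA : A.LiesOverPrime ℓ) [Finite S]
    (τ : S → Qb) (hτ : ∀ s, τ s ∈ A.nonunits) (M' : ℕ) :
    ∃ M : ℕ, ∀ s, ∃ e ∈ A, τ s ^ M = (ℓ : Qb) ^ M' * e := by
  classical
  letI : Fintype S := Fintype.ofFinite S
  choose N hN0 e he heq using fun s => exists_pow_eq_prime_mul hℓ hA (hτ s)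
  -- a common exponent
  have hτA : ∀ s, τ s ∈ A := fun s => ValuationSubring.nonunits_subset (hτ s)
  let N₀ : ℕ := ∑ s, N s
  have hle : ∀ s, N s ≤ N₀ := fun s =>
    Finset.single_le_sum (f := N) (fun _ _ => Nat.zero_le _) (Finset.mem_univ s)
  have h1 : ∀ s, ∃ e' ∈ A, τ s ^ N₀ = (ℓ : Qb) * e' := by
    intro s
    refine ⟨e s * τ s ^ (N₀ - N s), mul_mem (he s) (pow_mem (hτA s) _), ?_⟩
    calc τ s ^ N₀ = τ s ^ (N s + (N₀ - N s)) := by rw [Nat.add_sub_cancel' (hle s)]
      _ = τ s ^ N s * τ s ^ (N₀ - N s) := pow_add _ _ _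
      _ = (ℓ : Qb) * (e s * τ s ^ (N₀ - N s)) := by rw [heq s]; ring
  refine ⟨N₀ * M', fun s => ?_⟩
  obtain ⟨e', he', h⟩ := h1 s
  refine ⟨e' ^ M', pow_mem he' _, ?_⟩
  rw [pow_mul, h, mul_pow]

end Fermat.Agent.H26.FF
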