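import Fermat.Agent.H94.FF.G7Interfaces2
import Fermat.Agent.H94.FF.G7Kernel

/-!
# P-FF, FF-G7-F2FAM (row 822): the core lemmas of the first half of the two-step

* `f2_nopole`, `f2_hasValue_valAt`, `f2_value_red`: values of elements of `O ∩ L(n P∞)` at the
  points of a disc away from `P∞`;
* `f2_coe_sum`, `f2_hasValue_sum`, `f2_red_sum`, `f2_red_ne_zero`: the function
  `F2 = ∑ κ_j m_j`, its values and its reduction;
* `f2_core`, `f2_core_index`: the Cramer step - given conditions at moving points `pt c s`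
  (`c` in a finite index set with `card + 1 =` number of the `m_j`) with approximable condition
  matrix and reduced kernel of dimension `≤ 1`, there are approximable integral coefficients
  `κ_j(s)`, one of them a unit, such that `∑ κ_j(s) m_j` vanishes at all `pt c s`.
-/

set_option autoImplicit false
set_option synthInstance.maxHeartbeats 400000
set_option maxHeartbeats 1000000
set_option linter.style.haveILetI false
set_option linter.unusedSectionVars false

noncomputable section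

open AlgebraicCurve ModularCurve Fermat.Agent.H18 Fermat.Agent.H27.ESD

namespace Fermat.Agent.H26.FF

open Fermat.Agent.H10.FF Fermat.Agent.H72.FF Fermat.Agent.H94.FF

section Core

variable {N ℓ : ℕ} {A : ValuationSubring Qb}
  {r : Place Qb (FLb N) → Place (kRes A) (Fkb A N)} {g : ℕ}

/-- elements of `L(n P∞)` have no poles on a disc away from `P∞` -/
theorem f2_nopole {Pinf : Place Qb (FLb N)} {n : ℤ} {y : FLb N}
    (hy : y ∈ riemannRochSpace (Finsupp.single Pinf n)) {Q : Place (kRes A) (Fkb A N)}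
    (hQ : Q ≠ r Pinf) (P1 : Place Qb (FLb N)) (hP1 : r P1 = Q) : 0 ≤ P1.ord y := by
  refine ord_nonneg_of_mem_rr_single hy ?_
  rintro rfl
  exact hQ hP1.symm

/-- the value at a point without pole -/
theorem f2_hasValue_valAt (hS : GeoSetup N ℓ A r g) {y : FLb N} {P : Place Qb (FLb N)}
    (h : 0 ≤ P.ord y) : HasValue P y (valAt P y) :=
  hasVal_valAt_of_ord (hS.pkgL.deg_one P) h

/-- integrality of the values on a disc without poles, and their reduction -/
theorem f2_value_red (hS : GeoSetup N ℓ A r g) (y : gaussRing A N)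
    (Q : Place (kRes A) (Fkb A N)) (hnp : ∀ P1, r P1 = Q → 0 ≤ P1.ord (y : FLb N))
    (P : Place Qb (FLb N)) (hP : r P = Q) :
    ∃ hcA : valAt P (y : FLb N) ∈ A,
      HasVal Q (gaussRed A N y) (IsLocalRing.residue A ⟨valAt P (y : FLb N), hcA⟩) :=
  hasValue_red hS.rv y Q hnp P hP _ (f2_hasValue_valAt hS (hnp P hP))

/-- the underlying function of `∑ κ_j m_j` -/
theorem f2_coe_sum {d : ℕ} (κ : Fin d → A) (m : Fin d → gaussRing A N) :
    (((∑ j, gaussConst A N (κ j) * m j : gaussRing A N)) : FLb N) =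
      ∑ j, algebraMap Qb (FLb N) (κ j : Qb) * (m j : FLb N) := by
  rw [AddSubmonoidClass.coe_finsetSum]
  rfl

/-- the value of `∑ κ_j m_j` -/
theorem f2_hasValue_sum {d : ℕ} (κ : Fin d → A) (m : Fin d → gaussRing A N)
    (P : Place Qb (FLb N)) (c : Fin d → Qb) (h : ∀ j, HasValue P (m j : FLb N) (c j)) :
    HasValue P (((∑ j, gaussConst A N (κ j) * m j : gaussRing A N)) : FLb N)
      (∑ j, (κ j : Qb) * c j) := by
  rw [f2_coe_sum]
  exact hasVal_sum _ _ _ fun j _ => HasVal.const_mul _ (h j)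

/-- the reduction of `∑ κ_j m_j` -/
theorem f2_red_sum {d : ℕ} (κ : Fin d → A) (m : Fin d → gaussRing A N) :
    gaussRed A N (∑ j, gaussConst A N (κ j) * m j) =
      ∑ j, algebraMap (kRes A) (Fkb A N) (IsLocalRing.residue A (κ j)) * gaussRed A N (m j) := by
  rw [map_sum]
  refine Finset.sum_congr rfl fun j _ => ?_
  rw [map_mul, gaussRed_gaussConst]

/-- the reduction of `∑ κ_j m_j` is nonzero if the reductions of the `m_j` are independent and
some `κ_j` is a unit -/
theorem f2_red_ne_zero {d : ℕ} (κ : Fin d → A) (m : Fin d → gaussRing A N)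
    (hind : LinearIndependent (kRes A) (fun j => gaussRed A N (m j)))
    (hκ : ∃ j, IsLocalRing.residue A (κ j) ≠ 0) :
    gaussRed A N (∑ j, gaussConst A N (κ j) * m j) ≠ 0 := by
  rw [f2_red_sum]
  intro h0
  obtain ⟨j, hj⟩ := hκ
  have hli := Fintype.linearIndependent_iff.mp hind
  refine hj (hli (fun j => IsLocalRing.residue A (κ j)) ?_ j)
  rw [← h0]
  refine Finset.sum_congr rfl fun j _ => ?_
  rw [Algebra.smul_def]

/-- an element of `A` with inverse in `A` has nonzero residue -/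
theorem f2_residue_ne_zero (a : A) (h0 : (a : Qb) ≠ 0) (hinv : (a : Qb)⁻¹ ∈ A) :
    IsLocalRing.residue A a ≠ 0 := by
  have hu : IsUnit a := by
    refine isUnit_iff_exists_inv.mpr ⟨⟨(a : Qb)⁻¹, hinv⟩, ?_⟩
    apply Subtype.ext
    show (a : Qb) * (a : Qb)⁻¹ = 1
    exact mul_inv_cancel₀ h0
  intro h
  exact (IsLocalRing.residue_eq_zero_iff a).mp h |> fun hm =>
    (IsLocalRing.mem_maximalIdeal a).mp hm hu

/-- **The Cramer step.** -/
theorem f2_core (hCr : CramerStatement) (hS : GeoSetup N ℓ A r g)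
    {S : Type} [Finite S] {n : ℕ} (x : S → Fin n → Qb) (hx : ∀ s i, x s i ∈ A.nonunits)
    (d : ℕ) (m : Fin (d + 1) → gaussRing A N)
    (Qc : Fin d → Place (kRes A) (Fkb A N)) (pt : Fin d → S → Place Qb (FLb N))
    (hpt : ∀ c s, r (pt c s) = Qc c)
    (hnp : ∀ c j P1, r P1 = Qc c → 0 ≤ P1.ord (m j : FLb N))
    (hC : ∀ c j, IsApprox ℓ A x (fun s => valAt (pt c s) (m j : FLb N)))
    (hker : ∀ v w : Fin (d + 1) → kRes A,
      (∀ c, HasVal (Qc c)
        (∑ j, algebraMap (kRes A) (Fkb A N) (v j) * gaussRed A N (m j)) 0) →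
      (∀ c, HasVal (Qc c)
        (∑ j, algebraMap (kRes A) (Fkb A N) (w j) * gaussRed A N (m j)) 0) →
      v ≠ 0 → ∃ a : kRes A, w = a • v) :
    ∃ κ : Fin (d + 1) → S → A, (∀ j, IsApprox ℓ A x (fun s => (κ j s : Qb))) ∧
      (∀ s c, HasValue (pt c s)
        (((∑ j, gaussConst A N (κ j s) * m j : gaussRing A N)) : FLb N) 0) ∧
      (∀ s, ∃ j, IsLocalRing.residue A (κ j s) ≠ 0) := by
  classical
  -- the values of the reductions
  have hvk : ∀ c j, HasVal (Qc c) (gaussRed A N (m j))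
      (valAt (Qc c) (gaussRed A N (m j))) := by
    intro c j
    by_cases h0 : gaussRed A N (m j) = 0
    · rw [h0]
      exact hasVal_valAt ⟨0, hasVal_zero _⟩
    · exact hasVal_valAt_of_ord (hS.pkgk.deg_one _)
        (hS.rv.ord_red_nonneg (m j) h0 (Qc c) (hnp c j))
  have hres : ∀ c j s, ∃ h : valAt (pt c s) (m j : FLb N) ∈ A,
      IsLocalRing.residue A ⟨valAt (pt c s) (m j : FLb N), h⟩ =
        valAt (Qc c) (gaussRed A N (m j)) := by
    intro c j s
    obtain ⟨hcA, hv⟩ := f2_value_red hS (m j) (Qc c) (hnp c j) (pt c s) (hpt c s)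
    exact ⟨hcA, hv.unique (hvk c j)⟩
  have hk : ∀ v : Fin (d + 1) → kRes A,
      (∀ c, ∑ j, valAt (Qc c) (gaussRed A N (m j)) * v j = 0) →
      ∀ c, HasVal (Qc c)
        (∑ j, algebraMap (kRes A) (Fkb A N) (v j) * gaussRed A N (m j)) 0 := by
    intro v hv c
    have h1 : HasVal (Qc c)
        (∑ j, algebraMap (kRes A) (Fkb A N) (v j) * gaussRed A N (m j))
        (∑ j, v j * valAt (Qc c) (gaussRed A N (m j))) :=
      hasVal_sum _ _ _ fun j _ => HasVal.const_mul _ (hvk c j)
    have h2 : ∑ j, v j * valAt (Qc c) (gaussRed A N (m j)) = 0 := by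
      rw [← hv c]
      exact Finset.sum_congr rfl fun j _ => mul_comm _ _
    rwa [h2] at h1
  obtain ⟨κ0, hκA, hκmem, hκker, hκunit⟩ := hCr ℓ A hS.prime hS.liesOver S n x hx d
    (fun c j s => valAt (pt c s) (m j : FLb N))
    (fun _ c j => valAt (Qc c) (gaussRed A N (m j))) hC hres
    (fun s v w hv hw hv0 => hker v w (hk v hv) (hk w hw) hv0)
  refine ⟨fun j s => ⟨κ0 j s, hκmem j s⟩, hκA, fun s c => ?_, fun s => ?_⟩
  · have h1 := f2_hasValue_sum (fun j => (⟨κ0 j s, hκmem j s⟩ : A)) m (pt c s)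
      (fun j => valAt (pt c s) (m j : FLb N))
      (fun j => f2_hasValue_valAt hS (hnp c j (pt c s) (hpt c s)))
    have h2 : ∑ j, κ0 j s * valAt (pt c s) (m j : FLb N) = 0 := by
      rw [← hκker s c]
      exact Finset.sum_congr rfl fun j _ => mul_comm _ _
    have h3 : (∑ j, ((⟨κ0 j s, hκmem j s⟩ : A) : Qb) * valAt (pt c s) (m j : FLb N)) = 0 := h2
    rwa [h3] at h1
  · obtain ⟨j, hj0, hjinv⟩ := hκunit s
    exact ⟨j, f2_residue_ne_zero ⟨κ0 j s, hκmem j s⟩ hj0 hjinv⟩

/-- **The Cramer step**, conditions indexed by a finite type. -/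
theorem f2_core_index (hCr : CramerStatement) (hS : GeoSetup N ℓ A r g)
    {S : Type} [Finite S] {n : ℕ} (x : S → Fin n → Qb) (hx : ∀ s i, x s i ∈ A.nonunits)
    {ι : Type} [Fintype ι] (D : ℕ) (hD : Fintype.card ι + 1 = D) (m : Fin D → gaussRing A N)
    (Qc : ι → Place (kRes A) (Fkb A N)) (pt : ι → S → Place Qb (FLb N))
    (hpt : ∀ c s, r (pt c s) = Qc c)
    (hnp : ∀ c j P1, r P1 = Qc c → 0 ≤ P1.ord (m j : FLb N))
    (hC : ∀ c j, IsApprox ℓ A x (fun s => valAt (pt c s) (m j : FLb N)))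
    (hker : ∀ v w : Fin D → kRes A,
      (∀ c, HasVal (Qc c)
        (∑ j, algebraMap (kRes A) (Fkb A N) (v j) * gaussRed A N (m j)) 0) →
      (∀ c, HasVal (Qc c)
        (∑ j, algebraMap (kRes A) (Fkb A N) (w j) * gaussRed A N (m j)) 0) →
      v ≠ 0 → ∃ a : kRes A, w = a • v) :
    ∃ κ : Fin D → S → A, (∀ j, IsApprox ℓ A x (fun s => (κ j s : Qb))) ∧
      (∀ s c, HasValue (pt c s)
        (((∑ j, gaussConst A N (κ j s) * m j : gaussRing A N)) : FLb N) 0) ∧
      (∀ s, ∃ j, IsLocalRing.residue A (κ j s) ≠ 0) := by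
  subst hD
  obtain ⟨κ, h1, h2, h3⟩ := f2_core hCr hS x hx (Fintype.card ι) m
    (fun c => Qc ((Fintype.equivFin ι).symm c)) (fun c => pt ((Fintype.equivFin ι).symm c))
    (fun c s => hpt _ s) (fun c j => hnp _ j) (fun c j => hC _ j)
    (fun v w hv hw => hker v w
      (fun c => by
        have := hv (Fintype.equivFin ι c)
        rwa [Equiv.symm_apply_apply] at this)
      (fun c => by
        have := hw (Fintype.equivFin ι c)
        rwa [Equiv.symm_apply_apply] at this))
  refine ⟨κ, h1, fun s c => ?_, h3⟩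
  have := h2 s (Fintype.equivFin ι c)
  rwa [Equiv.symm_apply_apply] at this

end Core

end Fermat.Agent.H26.FF
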