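import Fermat.Agent.H26.FF.F2Steps

/-!
# P-FF, FF-G7-F2FAM (row 822): the first half of the two-step

`f2Family : AuxSectionsStatement → LiftBasisStatement → TaylorApproxStatement →
RootApproxStatement → DiscZeroStatement → RedKernelStatement → CramerStatement →
UnrCoordStatement → F2FamilyStatement`.
-/

set_option autoImplicit false
set_option synthInstance.maxHeartbeats 400000
set_option maxHeartbeats 2000000
set_option linter.style.haveILetI false
set_option linter.unusedSectionVars false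

noncomputable section

open AlgebraicCurve ModularCurve Fermat.Agent.H18 Fermat.Agent.H27.ESD

namespace Fermat.Agent.H26.FF

open Fermat.Agent.H10.FF Fermat.Agent.H72.FF Fermat.Agent.H94.FF

section Family

variable {N ℓ : ℕ} {A : ValuationSubring Qb}
  {r : Place Qb (FLb N) → Place (kRes A) (Fkb A N)} {g : ℕ}

/-- `∑ κ_j m_j` lies in `L(n P∞)` if the `m_j` do -/
theorem f2_sum_mem_rr {d : ℕ} (κ : Fin d → A) (m : Fin d → gaussRing A N)
    (D : Divisor Qb (FLb N)) (hm : ∀ j, (m j : FLb N) ∈ riemannRochSpace D) :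
    (((∑ j, gaussConst A N (κ j) * m j : gaussRing A N)) : FLb N) ∈ riemannRochSpace D := by
  rw [f2_coe_sum]
  refine Submodule.sum_mem _ fun j _ => ?_
  rw [← Algebra.smul_def]
  exact Submodule.smul_mem _ _ (hm j)

/-- reductions of elements of `L(n P∞)` lie in `L(n r(P∞))` -/
theorem f2_red_mem_rr (hS : GeoSetup N ℓ A r g) (Pinf : Place Qb (FLb N)) (n : ℤ)
    (y : gaussRing A N) (hy : (y : FLb N) ∈ riemannRochSpace (Finsupp.single Pinf n)) :
    gaussRed A N y ∈ riemannRochSpace (Finsupp.single (r Pinf) n) := by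
  have h := hS.rv.red_mem_riemannRochSpace (Finsupp.single Pinf n) y hy
  rwa [Finsupp.mapDomain_single] at h

/-- the reduction of an element of `O` vanishing at a point of a disc without poles vanishes
at the centre of the disc -/
theorem f2_red_hasVal_zero (hS : GeoSetup N ℓ A r g) (y : gaussRing A N)
    (Q : Place (kRes A) (Fkb A N)) (hnp : ∀ P1, r P1 = Q → 0 ≤ P1.ord (y : FLb N))
    (P : Place Qb (FLb N)) (hP : r P = Q) (h0 : HasValue P (y : FLb N) 0) :
    HasVal Q (gaussRed A N y) 0 := by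
  obtain ⟨hcA, h⟩ := hasValue_red hS.rv y Q hnp P hP 0 h0
  have h1 : (⟨0, hcA⟩ : A) = 0 := rfl
  rwa [h1, map_zero] at h

/-- **FF-G7-F2FAM**: the first half of the two-step. -/
theorem f2Family (hAux : AuxSectionsStatement) (hBasis : LiftBasisStatement)
    (hTA : TaylorApproxStatement) (hRA : RootApproxStatement) (hDZ : DiscZeroStatement)
    (hRK : RedKernelStatement) (hCr : CramerStatement)
    (hCoord : Fermat.Agent.H72.FF.UnrCoordStatement) : F2FamilyStatement := by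
  classical
  intro N ℓ A r g hS Qs O t hsys hg S _ n x hx Pt τ hPt hτ hτA
  -- step 1 : the auxiliary sections and the basis
  obtain ⟨Pinf, hPinfU, hAux'⟩ := hAux N ℓ A r g hS Qs O t hsys
  obtain ⟨n0, hn0⟩ := hBasis N ℓ A r g hS Pinf hPinfU
  obtain ⟨nn, u, Zx, hnn, huU, huRR, hfam⟩ := hAux' n0
  have hn' : n0 ≤ ∑ a, nn a :=
    (hnn (Sum.inl ⟨0, hg⟩)).trans
      (Finset.single_le_sum (f := nn) (fun _ _ => Nat.zero_le _) (Finset.mem_univ _))
  obtain ⟨d, m, hd, hmU, hmRR, hmInd, -⟩ := hn0 (∑ a, nn a) hn'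
  -- step 2 : the values `α a s`
  have hnpu : ∀ a (Q : Place (kRes A) (Fkb A N)), Q ≠ r Pinf →
      ∀ P1, r P1 = Q → 0 ≤ P1.ord (u a : FLb N) :=
    fun a Q hQ => f2_nopole (huRR a) hQ
  have hα : ∀ a, ∃ α : S → A, (∀ s, HasValue (Pt s a) (u a : FLb N) (α s : Qb)) ∧
      (∀ s, IsLocalRing.residue A (α s) = 0) ∧ IsApprox ℓ A x (fun s => (α s : Qb)) :=
    fun a => f2_alpha hTA hS (hsys.coord (jproj a)) (u a) (huU a)
      (hnpu a _ (hfam.qinf_ne _)) (hfam.zero_main a).ge x hx (fun s => Pt s a) (τ a)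
      (fun s => hPt s a) (fun s => hτ s a) (hτA a)
  choose α hαval hαres hαA using hα
  -- coordinates at all places of the special fibre
  have hco := hCoord N ℓ A r g hS
  choose Pc tc hcoord using hco
  -- step 3 : the extra zeros
  have hZne : ∀ a (v : ↥(Zx a)), (v : Place (kRes A) (Fkb A N)) ≠ r Pinf := by
    intro a v h
    exact hfam.qinf_notMem a (h ▸ v.2)
  have hE : ∀ a (v : ↥(Zx a)), ∃ E : S → Place Qb (FLb N), (∀ s, r (E s) = v.1) ∧
      (∀ s, (E s).ord ((u a : FLb N) - algebraMap Qb (FLb N) (α a s : Qb)) = 1) ∧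
      (∀ s P1, r P1 = v.1 → P1 ≠ E s →
        P1.ord ((u a : FLb N) - algebraMap Qb (FLb N) (α a s : Qb)) = 0) ∧
      IsApprox ℓ A x (fun s => valAt (E s) (tc v.1 : FLb N)) :=
    fun a v => f2_extra hRA hDZ hS (hcoord v.1) (u a) (huU a) (hnpu a v.1 (hZne a v))
      (hfam.zero_extra a v.1 v.2) x hx (α a) (hαres a) (hαA a)
  choose E hEr hEord hEuniq hEA using hE
  -- step 4 : the conditions
  have hcard : Fintype.card (Fin g ⊕ (Σ a : Fin g ⊕ Fin g, ↥(Zx a))) + 1 = d := by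
    have h1 : ∑ a, ((Zx a).card + 1) = ∑ a, nn a :=
      Finset.sum_congr rfl fun a _ => hfam.card a
    rw [Finset.sum_add_distrib, Finset.sum_const, Finset.card_univ, Fintype.card_sum,
      Fintype.card_fin, smul_eq_mul, mul_one] at h1
    have h2 : Fintype.card (Fin g ⊕ (Σ a : Fin g ⊕ Fin g, ↥(Zx a))) =
        g + ∑ a, (Zx a).card := by
      rw [Fintype.card_sum, Fintype.card_fin, Fintype.card_sigma]
      congr 1
      exact Finset.sum_congr rfl fun a _ => Fintype.card_coe _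
    have h3 : ((∑ a, nn a : ℕ) : ℤ) = ((∑ a, (Zx a).card : ℕ) : ℤ) + ((g : ℤ) + g) := by
      rw [← h1]
      push_cast
      ring
    rw [h2]
    have h4 : ((g + ∑ a, (Zx a).card + 1 : ℕ) : ℤ) = (d : ℤ) := by
      rw [hd, h3]
      push_cast
      ring
    exact_mod_cast h4
  have hQc : ∀ c : Fin g ⊕ (Σ a : Fin g ⊕ Fin g, ↥(Zx a)),
      (Sum.elim Qs (fun p => (p.2 : Place (kRes A) (Fkb A N))) c) ≠ r Pinf := by
    rintro (i | ⟨a, v⟩)
    · exact hfam.qinf_ne i
    · exact hZne a v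
  have hpt : ∀ (c : Fin g ⊕ (Σ a : Fin g ⊕ Fin g, ↥(Zx a))) (s : S),
      r ((Sum.elim (fun i _ => O i) (fun p => E p.1 p.2) :
          Fin g ⊕ (Σ a : Fin g ⊕ Fin g, ↥(Zx a)) → S → Place Qb (FLb N)) c s) =
        Sum.elim Qs (fun p => (p.2 : Place (kRes A) (Fkb A N))) c := by
    rintro (i | ⟨a, v⟩) s
    · exact (hsys.coord i).red
    · exact hEr a v s
  have hnpm : ∀ (c : Fin g ⊕ (Σ a : Fin g ⊕ Fin g, ↥(Zx a))) (j : Fin d) P1,
      r P1 = Sum.elim Qs (fun p => (p.2 : Place (kRes A) (Fkb A N))) c →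
        0 ≤ P1.ord (m j : FLb N) :=
    fun c j => f2_nopole (hmRR j) (hQc c)
  have hC : ∀ (c : Fin g ⊕ (Σ a : Fin g ⊕ Fin g, ↥(Zx a))) (j : Fin d),
      IsApprox ℓ A x (fun s => valAt
        ((Sum.elim (fun i _ => O i) (fun p => E p.1 p.2) :
          Fin g ⊕ (Σ a : Fin g ⊕ Fin g, ↥(Zx a)) → S → Place Qb (FLb N)) c s)
        (m j : FLb N)) := by
    rintro (i | ⟨a, v⟩) j
    · refine f2_cond_const hS (m j) (hmU j) (O i) (hsys.coord i).unrP ?_ x
      intro P1 hP1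
      exact hnpm (Sum.inl i) j P1 (hP1.trans (hsys.coord i).red)
    · exact hTA N ℓ A r g hS v.1 (Pc v.1) (tc v.1) (hcoord v.1) (m j) (hmU j)
        (hnpm (Sum.inr ⟨a, v⟩) j) S n x hx (E a v) (fun s => valAt (E a v s) (tc v.1 : FLb N))
        (fun s => valAt (E a v s) (m j : FLb N)) (hEr a v)
        (fun s => f2_hasValue_valAt hS ((hcoord v.1).nopole _ (hEr a v s)))
        (fun s => f2_hasValue_valAt hS (hnpm (Sum.inr ⟨a, v⟩) j _ (hEr a v s)))
        (hEA a v)
  have hxb : ∀ j, gaussRed A N (m j) ∈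
      riemannRochSpace (Finsupp.single (r Pinf) (((∑ a, nn a : ℕ)) : ℤ)) :=
    fun j => f2_red_mem_rr hS Pinf _ (m j) (hmRR j)
  obtain ⟨κ, hκA, hκvan, hκunit⟩ := f2_core_index hCr hS x hx d hcard m
    (Sum.elim Qs (fun p => (p.2 : Place (kRes A) (Fkb A N))))
    (Sum.elim (fun i _ => O i) (fun p => E p.1 p.2)) hpt hnpm hC
    (fun v w hv hw hv0 => kernel_le_one hRK hS.pkgk hsys.inj hsys.nonspecial hfam
      (fun j => gaussRed A N (m j)) hxb hmInd v w
      (fun i => hv (Sum.inl i)) (fun a q hq => hv (Sum.inr ⟨a, ⟨q, hq⟩⟩))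
      (fun i => hw (Sum.inl i)) (fun a q hq => hw (Sum.inr ⟨a, ⟨q, hq⟩⟩)) hv0)
  -- step 5 : the family `F2`
  have hF2RR : ∀ s, (((∑ j, gaussConst A N (κ j s) * m j : gaussRing A N)) : FLb N) ∈
      riemannRochSpace (Finsupp.single Pinf (((∑ a, nn a : ℕ)) : ℤ)) :=
    fun s => f2_sum_mem_rr (fun j => κ j s) m _ hmRR
  have hF2red : ∀ (s : S) (c : Fin g ⊕ (Σ a : Fin g ⊕ Fin g, ↥(Zx a))),
      HasVal (Sum.elim Qs (fun p => (p.2 : Place (kRes A) (Fkb A N))) c)
        (gaussRed A N (∑ j, gaussConst A N (κ j s) * m j)) 0 :=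
    fun s c => f2_red_hasVal_zero hS _ _ (f2_nopole (hF2RR s) (hQc c)) _ (hpt c s)
      (hκvan s c)
  refine ⟨Pinf, nn, u, Zx, α, d, m, κ, huRR, hfam, fun s a => hαval a s, hmU, hmRR, hκA,
    fun s => ?_, fun s i => hκvan s (Sum.inl i), fun s a v hv P1 hP1 hval => ?_⟩
  · obtain ⟨γ, hγ⟩ := hRK (kRes A) (Fkb A N) g hS.pkgk Qs hsys.inj hsys.nonspecial (r Pinf) nn
      (fun a => gaussRed A N (u a)) Zx hfam
      (gaussRed A N (∑ j, gaussConst A N (κ j s) * m j))
      (f2_red_mem_rr hS Pinf _ _ (hF2RR s)) (fun i => hF2red s (Sum.inl i))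
      (fun a q hq => hF2red s (Sum.inr ⟨a, ⟨q, hq⟩⟩))
    refine ⟨γ, ?_, hγ⟩
    rintro rfl
    rw [map_zero, zero_mul] at hγ
    exact f2_red_ne_zero (fun j => κ j s) m hmInd (hκunit s) hγ
  · by_cases hP : P1 = E a ⟨v, hv⟩ s
    · rw [hP]
      exact hκvan s (Sum.inr ⟨a, ⟨v, hv⟩⟩)
    · exfalso
      have h0 := hEuniq a ⟨v, hv⟩ s P1 hP1 hP
      rcases (hasVal_zero_iff P1).mp hval with h1 | h1
      · have h2 := hEord a ⟨v, hv⟩ s
        rw [h1, Place.ord_zero] at h2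
        exact zero_ne_one h2
      · omega

end Family

end Fermat.Agent.H26.FF
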