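import Fermat.Agent.H26.FF.F2Family
import Fermat.Agent.H26.FF.TaylorApprox

/-!
# P-FF, FF-G7-F2FAM (row 822): `F2FamilyStatement` with the landed blocks plugged in

`f2Family_of_taylorRed`: CRAMER (`cramer`) and T-APPROX (`taylorApprox`) discharged.
-/

set_option autoImplicit false
set_option synthInstance.maxHeartbeats 400000
set_option linter.style.haveILetI false
set_option linter.unusedSectionVars false

noncomputable section

open AlgebraicCurve ModularCurve Fermat.Agent.H18 Fermat.Agent.H27.ESD

namespace Fermat.Agent.H26.FF

open Fermat.Agent.H10.FF Fermat.Agent.H72.FF Fermat.Agent.H94.FF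

/-- **FF-G7-F2FAM** with CRAMER and T-APPROX discharged. -/
theorem f2Family_of_taylorRed (hAux : AuxSectionsStatement) (hBasis : LiftBasisStatement)
    (hT : Fermat.Agent.H72.FF.TaylorRedStatement) (hRA : RootApproxStatement)
    (hDZ : DiscZeroStatement) (hRK : RedKernelStatement)
    (hCoord : Fermat.Agent.H72.FF.UnrCoordStatement) : F2FamilyStatement :=
  f2Family hAux hBasis (taylorApprox hT) hRA hDZ hRK cramer hCoord

end Fermat.Agent.H26.FF
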