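import Fermat.Agent.H26.FF.F2Core

/-!
# P-FF, FF-G7-F2FAM (row 822): steps 2 and 3 of the first half of the two-step

* `f2_alpha`: the values `α s = u(pt s)` of an auxiliary section at moving points of the disc of
  a simple zero of its reduction are integral, nonunits and approximable (T-APPROX);
* `f2_extra`: the extra zeros `E s` of `u - α s` in the disc of a simple zero `v` of the reduction
  of `u` (DISC-ZERO), and the approximability of their coordinates (ROOT-APPROX);
* `f2_cond_const`: the values of an unramified function at an unramified place are constants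
  of `R`.
-/

set_option autoImplicit false
set_option synthInstance.maxHeartbeats 400000
set_option maxHeartbeats 1000000
set_option linter.style.haveILetI false
set_option linter.unusedSectionVars false

noncomputable section

open AlgebraicCurve ModularCurve Fermat.Agent.H18 Fermat.Agent.H27.ESD

namespace Fermat.Agent.H26.FF

open Fermat.Agent.H10.FF Fermat.Agent.H72.FF Fermat.Agent.H94.FF

section Steps

variable {N ℓ : ℕ} {A : ValuationSubring Qb}
  {r : Place Qb (FLb N) → Place (kRes A) (Fkb A N)} {g : ℕ}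

/-- **Step 2**: the values of an auxiliary section at the moving points. -/
theorem f2_alpha (hTA : TaylorApproxStatement) (hS : GeoSetup N ℓ A r g)
    {Q : Place (kRes A) (Fkb A N)} {P : Place Qb (FLb N)} {t : gaussRing A N}
    (ht : IsUnrCoord A N r Q P t) (u : gaussRing A N) (huU : IsUnrFn A N (u : FLb N))
    (hnp : ∀ P1, r P1 = Q → 0 ≤ P1.ord (u : FLb N))
    (hz : 1 ≤ Q.ord (gaussRed A N u))
    {S : Type} [Finite S] {n : ℕ} (x : S → Fin n → Qb) (hx : ∀ s i, x s i ∈ A.nonunits)
    (pt : S → Place Qb (FLb N)) (τ : S → Qb) (hpt : ∀ s, r (pt s) = Q)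
    (hτ : ∀ s, HasValue (pt s) (t : FLb N) (τ s)) (hτA : IsApprox ℓ A x τ) :
    ∃ α : S → A, (∀ s, HasValue (pt s) (u : FLb N) (α s : Qb)) ∧
      (∀ s, IsLocalRing.residue A (α s) = 0) ∧ IsApprox ℓ A x (fun s => (α s : Qb)) := by
  have hv : ∀ s, ∃ hcA : valAt (pt s) (u : FLb N) ∈ A,
      HasVal Q (gaussRed A N u) (IsLocalRing.residue A ⟨valAt (pt s) (u : FLb N), hcA⟩) :=
    fun s => f2_value_red hS u Q hnp (pt s) (hpt s)
  have hQ0 : HasVal Q (gaussRed A N u) 0 := (hasVal_zero_iff Q).mpr (Or.inr hz)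
  refine ⟨fun s => ⟨valAt (pt s) (u : FLb N), (hv s).1⟩,
    fun s => f2_hasValue_valAt hS (hnp _ (hpt s)), fun s => (hv s).2.unique hQ0, ?_⟩
  exact hTA N ℓ A r g hS Q P t ht u huU hnp S n x hx pt τ _ hpt hτ
    (fun s => f2_hasValue_valAt hS (hnp _ (hpt s))) hτA

/-- the constant function `1` is unramified -/
theorem f2_isUnrFn_one : IsUnrFn A N (1 : FLb N) := by
  intro σ _
  exact smul_one _

/-- **Step 3**: the extra zeros. -/
theorem f2_extra (hRA : RootApproxStatement) (hDZ : DiscZeroStatement)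
    (hS : GeoSetup N ℓ A r g)
    {v : Place (kRes A) (Fkb A N)} {Pv : Place Qb (FLb N)} {tv : gaussRing A N}
    (hco : IsUnrCoord A N r v Pv tv) (u : gaussRing A N) (huU : IsUnrFn A N (u : FLb N))
    (hnp : ∀ P1, r P1 = v → 0 ≤ P1.ord (u : FLb N))
    (hz : v.ord (gaussRed A N u) = 1)
    {S : Type} [Finite S] {n : ℕ} (x : S → Fin n → Qb) (hx : ∀ s i, x s i ∈ A.nonunits)
    (α : S → A) (hα0 : ∀ s, IsLocalRing.residue A (α s) = 0)
    (hαA : IsApprox ℓ A x (fun s => (α s : Qb))) :
    ∃ E : S → Place Qb (FLb N), (∀ s, r (E s) = v) ∧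
      (∀ s, (E s).ord ((u : FLb N) - algebraMap Qb (FLb N) (α s : Qb)) = 1) ∧
      (∀ s P1, r P1 = v → P1 ≠ E s →
        P1.ord ((u : FLb N) - algebraMap Qb (FLb N) (α s : Qb)) = 0) ∧
      IsApprox ℓ A x (fun s => valAt (E s) (tv : FLb N)) := by
  have hwred : ∀ s, gaussRed A N (u - gaussConst A N (α s)) = gaussRed A N u := by
    intro s
    rw [map_sub, gaussRed_gaussConst, hα0 s, map_zero, sub_zero]
  have hwnp : ∀ s P1, r P1 = v →
      0 ≤ P1.ord (((u - gaussConst A N (α s) : gaussRing A N)) : FLb N) := by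
    intro s P1 hP1
    have h1 : HasVal P1 (u : FLb N) (valAt P1 (u : FLb N)) :=
      f2_hasValue_valAt hS (hnp P1 hP1)
    exact (h1.sub (hasVal_const P1 (α s : Qb))).ord_nonneg
  have hE : ∀ s, ∃ P, r P = v ∧
      P.ord (((u - gaussConst A N (α s) : gaussRing A N)) : FLb N) = 1 ∧
      ∀ P1, r P1 = v → P1 ≠ P →
        P1.ord (((u - gaussConst A N (α s) : gaussRing A N)) : FLb N) = 0 :=
    fun s => hDZ N ℓ A r g hS v (u - gaussConst A N (α s)) (by rw [hwred s]; exact hz)
      (hwnp s)
  choose E hEr hEord hEuniq using hE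
  refine ⟨E, hEr, hEord, hEuniq, ?_⟩
  have hsum : ∀ s, (∑ j : Fin 2, gaussConst A N ((![fun _ => (1 : A), fun s => -α s] :
      Fin 2 → S → A) j s) * (![u, 1] : Fin 2 → gaussRing A N) j) =
      u - gaussConst A N (α s) := by
    intro s
    apply Subtype.ext
    rw [Fin.sum_univ_two]
    simp only [Matrix.cons_val_zero, Matrix.cons_val_one]
    show algebraMap Qb (FLb N) ((1 : A) : Qb) * (u : FLb N) +
      algebraMap Qb (FLb N) ((-α s : A) : Qb) * (1 : FLb N) =
      (u : FLb N) - algebraMap Qb (FLb N) (α s : Qb)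
    rw [OneMemClass.coe_one, map_one, NegMemClass.coe_neg, map_neg]
    ring
  refine hRA N ℓ A r g hS v Pv tv hco 2 ![u, 1] ?_ ?_ S n x hx
    ![fun _ => (1 : A), fun s => -α s] ?_ ?_ E _ hEr
    (fun s => f2_hasValue_valAt hS (hco.nopole _ (hEr s))) ?_
  · intro j
    fin_cases j
    · exact huU
    · exact f2_isUnrFn_one
  · intro j P1 hP1
    fin_cases j
    · exact hnp P1 hP1
    · show 0 ≤ P1.ord (1 : FLb N)
      rw [Place.ord_one]
  · intro j
    fin_cases j
    · show IsApprox ℓ A x (fun _ => ((1 : A) : Qb))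
      exact isApprox_const' (by rw [OneMemClass.coe_one]; exact (unrInt A).one_mem)
    · show IsApprox ℓ A x (fun s => ((-α s : A) : Qb))
      exact IsApprox.neg' hαA
  · intro s
    rw [hsum s, hwred s]
    exact hz
  · intro s
    rw [hsum s]
    exact (hasVal_zero_iff (E s)).mpr (Or.inr (hEord s).ge)

/-- the value of an unramified function at a fixed unramified place, as a constant family -/
theorem f2_cond_const (hS : GeoSetup N ℓ A r g) (y : gaussRing A N)
    (hyU : IsUnrFn A N (y : FLb N)) (P : Place Qb (FLb N)) (hP : IsUnrPlace A N P)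
    (hnp : ∀ P1, r P1 = r P → 0 ≤ P1.ord (y : FLb N))
    {S : Type} {n : ℕ} (x : S → Fin n → Qb) :
    IsApprox ℓ A x (fun _ : S => valAt P (y : FLb N)) :=
  isApprox_const' (isUnr_value_mem_unrInt hS.rv y P hnp hP hyU _
    (f2_hasValue_valAt hS (hnp P rfl)))

end Steps

end Fermat.Agent.H26.FF
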